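/-
S24 wrap-up (helper65): the Prelude `genus` of a function field is `g` as soon as every nonzero
differential has a divisor of degree `2 g - 2`.
-/
import Mathlib
import Fermat.Prelude.Def_AlgebraicCurve_CanonicalDivisor

set_option autoImplicit false

open AlgebraicCurve KaehlerDifferential

noncomputable section

namespace Fermat.Agent.S24.H65

variable {K F : Type*} [Field K] [Field F] [Algebra K F]

/-- If some nonzero differential exists and the divisor of every nonzero differential has degree
`2 g - 2`, then `AlgebraicCurve.genus K F = g`. -/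
theorem genus_eq_of_degree [HasCanonicalDivisor (K := K) (F := F)] (g : ℕ)
    (hne : ∃ ω : Ω[F⁄K], ω ≠ 0)
    (hdeg : ∀ (ω : Ω[F⁄K]), ω ≠ 0 → ∀ D : Divisor K F,
      (∀ v : Place K F, D v = v.ordDifferential ω) → Divisor.degree D = 2 * (g : ℤ) - 2) :
    genus K F = g := by
  classical
  unfold genus
  rw [dif_pos hne]
  have h := hdeg hne.choose hne.choose_spec (canonicalDivisorOf hne.choose_spec)
    (fun v => canonicalDivisorOf_apply hne.choose_spec v)
  rw [h]
  have e : (2 * (g : ℤ) - 2 + 2).toNat = 2 * g := by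
    have : 2 * (g : ℤ) - 2 + 2 = ((2 * g : ℕ) : ℤ) := by push_cast; ring
    rw [this, Int.toNat_natCast]
  rw [e]
  exact Nat.mul_div_cancel_left g (by norm_num)

/-- The rational form used by the frozen statement. -/
theorem genus_cast_eq_of_degree [HasCanonicalDivisor (K := K) (F := F)] (g : ℕ) (r : ℚ)
    (hg : (g : ℚ) = r) (hne : ∃ ω : Ω[F⁄K], ω ≠ 0)
    (hdeg : ∀ (ω : Ω[F⁄K]), ω ≠ 0 → ∀ D : Divisor K F,
      (∀ v : Place K F, D v = v.ordDifferential ω) → Divisor.degree D = 2 * (g : ℤ) - 2) :
    (genus K F : ℚ) = r := by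
  rw [genus_eq_of_degree g hne hdeg, hg]

end Fermat.Agent.S24.H65
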